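import Fermat.Agent.CarterKeller.Short
import Mathlib.LinearAlgebra.Matrix.Notation
import Mathlib.Data.Matrix.Basis
import Mathlib.Tactic.Ring
import Mathlib.Tactic.LinearCombination
import Mathlib.Tactic.FinCases

/-!
# Bounded Mennicke symbols

`Good N a b` says that every completion of the row `(a, b)` is a product of at most `N`
transvections in `SL 3 ℤ`; it is multiplicative, and the powers of a matrix are governed by the
powers of its first entry.
-/

set_option autoImplicit false

noncomputable section

namespace FA.CarterKeller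

open Matrix

/-- A `2 × 2` matrix inside `3 × 3` matrices. -/
def emb (a b c d : ℤ) : Matrix (Fin 3) (Fin 3) ℤ := !![a, b, 0; c, d, 0; 0, 0, 1]

/-- Every completion of the row costs at most `N`. -/
def Good (N : ℕ) (a b : ℤ) : Prop := ∀ c d : ℤ, a * d - b * c = 1 → Short N (emb a b c d)

theorem emb_mul (a b c d a' b' c' d' : ℤ) : emb a b c d * emb a' b' c' d' =
    emb (a * a' + b * c') (a * b' + b * d') (c * a' + d * c') (c * b' + d * d') := by
  simp [emb, mul_fin_three]

theorem emb_one : emb 1 0 0 1 = 1 := by simp [emb, one_fin_three]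

theorem tv01 (c : ℤ) : transvection (0 : Fin 3) 1 c = !![1, c, 0; 0, 1, 0; 0, 0, 1] := by
  ext i j
  fin_cases i <;> fin_cases j <;> simp [transvection, single]

theorem tv10 (c : ℤ) : transvection (1 : Fin 3) 0 c = !![1, 0, 0; c, 1, 0; 0, 0, 1] := by
  ext i j
  fin_cases i <;> fin_cases j <;> simp [transvection, single]

theorem tv12 (c : ℤ) : transvection (1 : Fin 3) 2 c = !![1, 0, 0; 0, 1, c; 0, 0, 1] := by
  ext i j
  fin_cases i <;> fin_cases j <;> simp [transvection, single]

theorem tv21 (c : ℤ) : transvection (2 : Fin 3) 1 c = !![1, 0, 0; 0, 1, 0; 0, c, 1] := by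
  ext i j
  fin_cases i <;> fin_cases j <;> simp [transvection, single]

theorem tv20 (c : ℤ) : transvection (2 : Fin 3) 0 c = !![1, 0, 0; 0, 1, 0; c, 0, 1] := by
  ext i j
  fin_cases i <;> fin_cases j <;> simp [transvection, single]

theorem short_upper (t : ℤ) : Short 1 (emb 1 t 0 1) := by
  have := short_transvection (show (0 : Fin 3) ≠ 1 by decide) t
  rwa [tv01] at this

theorem short_lower (t : ℤ) : Short 1 (emb 1 0 t 1) := by
  have := short_transvection (show (1 : Fin 3) ≠ 0 by decide) t
  rwa [tv10] at this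

theorem short_rot : Short 3 (emb 0 (-1) 1 0) := by
  have := ((short_lower 1).mul (short_upper (-1))).mul (short_lower 1)
  simpa [emb_mul] using this

theorem short_neg : Short 6 (emb (-1) 0 0 (-1)) := by
  simpa [emb_mul] using short_rot.mul short_rot

/-- A completion exists. -/
theorem exists_completion {a b : ℤ} (h : IsCoprime a b) : ∃ c d : ℤ, a * d - b * c = 1 := by
  obtain ⟨u, v, e⟩ := h
  exact ⟨-v, u, by linear_combination e⟩

theorem Good.mono {N N' : ℕ} {a b : ℤ} (h : Good N a b) (hN : N ≤ N') : Good N' a b :=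
  fun c d e => (h c d e).mono hN

/-- One completion suffices. -/
theorem good_of_short {N : ℕ} {a b c d : ℤ} (e : a * d - b * c = 1) (h : Short N (emb a b c d)) :
    Good (N + 1) a b := fun c' d' e' => by
  have := (short_lower (d * c' - c * d')).mul h
  rw [emb_mul] at this
  convert this.mono (by omega : 1 + N ≤ N + 1) using 2 <;>
    first
      | ring1
      | linear_combination (-c') * e + c * e'
      | linear_combination (-d') * e + d * e'

theorem good_one (b : ℤ) : Good 2 1 b := fun c d e => by
  have := (short_lower c).mul (short_upper b)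
  rw [emb_mul] at this
  convert this using 2 <;> first | ring1 | linear_combination e

theorem good_neg_one (b : ℤ) : Good 8 (-1) b := fun c d e => by
  have := short_neg.mul ((good_one (-b)) (-c) (-d) (by linear_combination e))
  rw [emb_mul] at this
  convert this using 2 <;> ring

theorem Good.congr_left {N : ℕ} {a a' b : ℤ} (h : Good N a b) (hd : b ∣ a' - a) :
    Good (N + 1) a' b := fun c d e => by
  obtain ⟨s, hs⟩ := hd
  have := (h (c - d * s) d (by linear_combination e - d * hs)).mul (short_lower s)
  rw [emb_mul] at this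
  convert this using 2 <;> first | ring1 | linear_combination hs

theorem Good.congr_right {N : ℕ} {a b b' : ℤ} (h : Good N a b) (hd : a ∣ b' - b) :
    Good (N + 1) a b' := fun c d e => by
  obtain ⟨s, hs⟩ := hd
  have := (h c (d - c * s) (by linear_combination e + c * hs)).mul (short_upper s)
  rw [emb_mul] at this
  convert this using 2 <;> first | ring1 | linear_combination hs

theorem Good.swap {N : ℕ} {a b : ℤ} (h : Good N a b) : Good (N + 3) b (-a) := fun c d e => by
  have := (h (-d) c (by linear_combination e)).mul short_rot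
  rw [emb_mul] at this
  convert this using 2 <;> ring

/-- Conjugation by `diag (-1, 1, 1)` preserves shortness. -/
theorem short_sign {N : ℕ} {a b c d : ℤ} (h : Short N (emb a b c d)) :
    Short N (emb a (-b) (-c) d) := by
  let D : Matrix (Fin 3) (Fin 3) ℤ := !![-1, 0, 0; 0, 1, 0; 0, 0, 1]
  have hD : D * D = 1 := by simp [D, mul_fin_three, one_fin_three]
  have e : emb a (-b) (-c) d = D * emb a b c d * D := by simp [D, emb, mul_fin_three]
  rw [e]
  obtain ⟨L, hL, hM⟩ := h
  rw [hM]
  clear hM e
  induction L generalizing N with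
  | nil => simpa [hD] using short_one
  | cons t L ih =>
    obtain ⟨N, rfl⟩ := Nat.exists_eq_succ_of_ne_zero (n := N) (by simp at hL; omega)
    rw [List.map_cons, List.prod_cons, show D * (t.toMatrix * (L.map _).prod) * D =
      (D * t.toMatrix * D) * (D * (L.map TransvectionStruct.toMatrix).prod * D) by
        simp only [mul_assoc]
        rw [← mul_assoc D D, hD, one_mul]]
    have hD' : D = diagonal ![-1, 1, 1] := by
      ext i j
      fin_cases i <;> fin_cases j <;> simp [D]
    have ht : D * t.toMatrix * D = transvection t.i t.j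
        ((![-1, 1, 1] : Fin 3 → ℤ) t.i * t.c * (![-1, 1, 1] : Fin 3 → ℤ) t.j) := by
      have h1 : D * 1 * D = 1 := by rw [mul_one, hD]
      rw [hD'] at h1 ⊢
      simp only [TransvectionStruct.toMatrix, transvection, mul_add, add_mul, h1]
      congr 1
      ext i j
      rw [mul_diagonal, diagonal_mul, single_apply, single_apply]
      split_ifs with h <;> simp [*]
    rw [ht, Nat.succ_eq_add_one, add_comm N 1]
    exact (short_transvection t.hij _).mul (ih (N := N) (by simpa using hL))

theorem Good.neg_right {N : ℕ} {a b : ℤ} (h : Good N a b) : Good N a (-b) := fun c d e => by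
  simpa using short_sign (h (-c) d (by linear_combination e))

/-- **The identity behind multiplicativity.** -/
theorem mennicke_identity {a₁ a₂ b c₁ d₁ c₂ d₂ : ℤ} (e : a₁ * d₁ - b * c₁ = 1) :
    transvection (2 : Fin 3) 1 d₂ * emb a₁ b c₁ d₁ * !![1, 0, 0; 0, 0, -1; 0, 1, 0] *
        emb a₂ b c₂ d₂ * !![1, 0, 0; 0, 0, 1; 0, -1, 0] *
        (transvection (1 : Fin 3) 2 (-a₁) * transvection (2 : Fin 3) 0 (c₁ * a₂) *
          transvection (2 : Fin 3) 1 d₁) =
      !![1, 0, 0; 0, 0, -1; 0, 1, 0] * emb (a₁ * a₂) b (c₂ + d₂ * c₁ * a₂) (d₁ * d₂) := by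
  simp only [tv21, tv12, tv20, emb, mul_fin_three]
  ext i j
  fin_cases i <;> fin_cases j <;> simp <;>
    first
      | ring1
      | linear_combination e
      | linear_combination (-1 : ℤ) * e
      | linear_combination a₂ * e
      | linear_combination (-a₂) * e
      | linear_combination d₂ * e
      | linear_combination (-d₂) * e
      | linear_combination c₁ * a₂ * e
      | linear_combination (-(c₁ * a₂)) * e
      | linear_combination d₂ * c₁ * a₂ * e
      | linear_combination (-(d₂ * c₁ * a₂)) * e
      | linear_combination d₂ * d₁ * e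
      | linear_combination (-(d₂ * d₁)) * e
      | linear_combination d₁ * e
      | linear_combination (-d₁) * e

theorem short_rot_twelve : Short 3 (!![1, 0, 0; 0, 0, -1; 0, 1, 0] : Matrix (Fin 3) (Fin 3) ℤ) ∧
    Short 3 (!![1, 0, 0; 0, 0, 1; 0, -1, 0] : Matrix (Fin 3) (Fin 3) ℤ) := by
  have h (t : ℤ) := ((short_transvection (show (2 : Fin 3) ≠ 1 by decide) t).mul
    (short_transvection (show (1 : Fin 3) ≠ 2 by decide) (-t))).mul
      (short_transvection (show (2 : Fin 3) ≠ 1 by decide) t)
  constructor
  · simpa [tv21, tv12, mul_fin_three] using h 1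
  · simpa [tv21, tv12, mul_fin_three] using h (-1)

/-- **Multiplicativity.** -/
theorem Good.mul {k l : ℕ} {a₁ a₂ b : ℤ} (h₁ : Good k a₁ b) (h₂ : Good l a₂ b)
    (hc₁ : IsCoprime a₁ b) (hc₂ : IsCoprime a₂ b) : Good (k + l + 14) (a₁ * a₂) b := by
  obtain ⟨c₁, d₁, e₁⟩ := exists_completion hc₁
  obtain ⟨c₂, d₂, e₂⟩ := exists_completion hc₂
  obtain ⟨hW, hW'⟩ := short_rot_twelve
  have hV := ((short_transvection (show (1 : Fin 3) ≠ 2 by decide) (-a₁)).mul
    (short_transvection (show (2 : Fin 3) ≠ 0 by decide) (c₁ * a₂))).mul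
    (short_transvection (show (2 : Fin 3) ≠ 1 by decide) d₁)
  have h := (((((short_transvection (show (2 : Fin 3) ≠ 1 by decide) d₂).mul
    (h₁ c₁ d₁ e₁)).mul hW).mul (h₂ c₂ d₂ e₂)).mul hW').mul hV
  rw [mennicke_identity e₁] at h
  have := Short.of_mul hW (short_one (k := 0)) (M := emb (a₁ * a₂) b (c₂ + d₂ * c₁ * a₂) (d₁ * d₂))
    (by rw [mul_one]; exact h)
  exact (good_of_short (by linear_combination a₂ * d₂ * e₁ + e₂) this).mono (by omega)

/-- **Cancellation.** -/
theorem Good.cancel {k l : ℕ} {a₁ a₂ b : ℤ} (h₃ : Good k (a₁ * a₂) b) (h₁ : Good l a₁ b)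
    (hc : IsCoprime (a₁ * a₂) b) : Good (k + l + 14) a₂ b := by
  obtain ⟨c₁, d₁, e₁⟩ := exists_completion hc.of_mul_left_left
  obtain ⟨c₂, d₂, e₂⟩ := exists_completion hc.of_mul_left_right
  obtain ⟨hW, hW'⟩ := short_rot_twelve
  have hV := ((short_transvection (show (1 : Fin 3) ≠ 2 by decide) (-a₁)).mul
    (short_transvection (show (2 : Fin 3) ≠ 0 by decide) (c₁ * a₂))).mul
    (short_transvection (show (2 : Fin 3) ≠ 1 by decide) d₁)
  have h := hW.mul (h₃ _ _ (by linear_combination a₂ * d₂ * e₁ + e₂ :
    a₁ * a₂ * (d₁ * d₂) - b * (c₂ + d₂ * c₁ * a₂) = 1))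
  have := Short.of_mul (((short_transvection (show (2 : Fin 3) ≠ 1 by decide) d₂).mul
    (h₁ c₁ d₁ e₁)).mul hW) (hW'.mul hV) (M := emb a₂ b c₂ d₂)
    (by rw [← mul_assoc, mennicke_identity e₁]; exact h)
  exact (good_of_short e₂ this).mono (by omega)

theorem Good.neg {N : ℕ} {a b : ℤ} (h : Good N a b) (hc : IsCoprime a b) :
    Good (N + 22) (-a) b := by
  have := (good_neg_one b).mul h isCoprime_one_left.neg_left hc
  rw [neg_one_mul] at this
  exact this.mono (by omega)

theorem Good.unswap {N : ℕ} {a b : ℤ} (h : Good N b (-a)) (hc : IsCoprime a b) :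
    Good (N + 25) a b := by
  have h' := h.swap.neg hc.neg_neg
  simpa using h'.neg_right.mono (by omega : N + 3 + 22 ≤ N + 25)

theorem Good.mul_right {k l : ℕ} {a b₁ b₂ : ℤ} (h₁ : Good k a b₁) (h₂ : Good l a b₂)
    (hc₁ : IsCoprime a b₁) (hc₂ : IsCoprime a b₂) : Good (k + l + 45) a (b₁ * b₂) := by
  exact ((h₁.swap.mul h₂.swap hc₁.symm.neg_right hc₂.symm.neg_right).mono
    (by omega : k + 3 + (l + 3) + 14 ≤ k + l + 20)).unswap (hc₁.mul_right hc₂)

theorem Good.cancel_right {k l : ℕ} {a b₁ b₂ : ℤ} (h₃ : Good k a (b₁ * b₂)) (h₁ : Good l a b₁)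
    (hc : IsCoprime a (b₁ * b₂)) : Good (k + l + 45) a b₂ := by
  exact ((h₃.swap.cancel h₁.swap hc.symm.neg_right).mono
    (by omega : k + 3 + (l + 3) + 14 ≤ k + l + 20)).unswap hc.of_mul_right_right

/-- The powers of a block are the blocks `x + y A`. -/
theorem exists_pow {a b c d : ℤ} (e : a * d - b * c = 1) (k : ℕ) :
    ∃ x y : ℤ, emb a b c d ^ k = emb (x + y * a) (y * b) (y * c) (x + y * d) ∧
      x * x + (a + d) * x * y + y * y = 1 ∧ b ∣ x + y * a - a ^ k := by
  induction k with
  | zero => exact ⟨1, 0, by simp [emb_one], by ring, by simp⟩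
  | succ k ih =>
    obtain ⟨x, y, hpow, hdet, hb⟩ := ih
    refine ⟨-y, x + (a + d) * y, ?_, by linear_combination hdet, ?_⟩
    · rw [pow_succ, hpow, emb_mul]
      congr 1 <;> first | ring1 | linear_combination (-y) * e
    · obtain ⟨s, hs⟩ := hb
      exact ⟨a * s + y * c, by linear_combination a * hs + y * e⟩

/-- An even power is the block of `x² - y²` and `y (2 x + t y)`. -/
theorem exists_pow_two_mul {a b c d : ℤ} (e : a * d - b * c = 1) (k : ℕ) :
    ∃ x y : ℤ, x * x + (a + d) * x * y + y * y = 1 ∧
      emb a b c d ^ (2 * k) = emb (x * x - y * y + y * (2 * x + (a + d) * y) * a)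
        (y * (2 * x + (a + d) * y) * b) (y * (2 * x + (a + d) * y) * c)
        (x * x - y * y + y * (2 * x + (a + d) * y) * d) ∧
      b ∣ x * x - y * y + y * (2 * x + (a + d) * y) * a - a ^ (2 * k) := by
  obtain ⟨x, y, hpow, hdet, s, hs⟩ := exists_pow e k
  refine ⟨x, y, hdet, ?_, ⟨s * (x + y * a + a ^ k) + y * y * c, ?_⟩⟩
  · rw [two_mul, pow_add, hpow, emb_mul]
    congr 1 <;> first | ring1 | linear_combination (-(y * y)) * e
  · rw [two_mul k, pow_add]
    linear_combination (x + y * a + a ^ k) * hs + y * y * e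

/-- **Even powers are governed by the powers of the first entry.** -/
theorem good_pow {N : ℕ} {a b c d : ℤ} (e : a * d - b * c = 1) (k : ℕ)
    (h : Good N (a ^ (2 * k)) b) : Short (N + 104) (emb a b c d ^ (2 * k)) := by
  obtain ⟨x, y, hdet, hpow, hb⟩ := exists_pow_two_mul e k
  set z := 2 * x + (a + d) * y
  set α := x * x - y * y + y * z * a
  have hα : α * (x * x - y * y + y * z * d) - y * z * b * (y * z * c) = 1 := by
    simp only [α, z]
    linear_combination (x * x + (a + d) * x * y + y * y + 1) * hdet +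
      (y * y * (2 * x + (a + d) * y) * (2 * x + (a + d) * y)) * e
  have hc : IsCoprime α (y * z * b) :=
    ⟨x * x - y * y + y * z * d, -(y * z * c), by linear_combination hα⟩
  have h1 : Good 3 α y := (good_one y).congr_left
    ⟨-((a + d) * x + 2 * y) + z * a, by simp only [α, z]; linear_combination hdet⟩
  have h2 : Good 9 α z := (good_neg_one z).congr_left
    ⟨x + y * a, by simp only [α, z]; linear_combination (-1 : ℤ) * hdet⟩
  have h3 : Good (N + 1) α b := h.congr_left hb
  have h4 := (h1.mul_right h2 hc.of_mul_right_left.of_mul_right_left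
    hc.of_mul_right_left.of_mul_right_right).mul_right h3 hc.of_mul_right_left
    hc.of_mul_right_right
  rw [hpow]
  exact (h4 _ _ hα).mono (by omega)

/-- **The first entry of a short square is short.** -/
theorem good_sq {N : ℕ} {a b c d : ℤ} (e : a * d - b * c = 1)
    (h : Short N (emb a b c d ^ 2)) : Good (N + 57) (a ^ 2) b := by
  rw [sq, emb_mul] at h
  have hdet : (a * a + b * c) * (c * b + d * d) - (a * b + b * d) * (c * a + d * c) = 1 := by
    linear_combination (a * d - b * c + 1) * e
  have h1 := good_of_short hdet h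
  rw [show a * b + b * d = (a + d) * b by ring] at h1
  have hc : IsCoprime (a * a + b * c) ((a + d) * b) :=
    ⟨c * b + d * d, -(c * a + d * c), by linear_combination hdet⟩
  have h2 : Good 9 (a * a + b * c) (a + d) := (good_neg_one (a + d)).congr_left
    ⟨a, by linear_combination (-1 : ℤ) * e⟩
  exact ((h1.cancel_right h2 hc).congr_left ⟨-c, by ring⟩).mono (by omega)

end FA.CarterKeller

end
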