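import Fermat.Agent.CarterKeller.Block
import Mathlib.NumberTheory.LSeries.PrimesInAP
import Mathlib.NumberTheory.LegendreSymbol.Basic
import Mathlib.FieldTheory.Finite.Basic
import Mathlib.Logic.Equiv.Fin.Basic

/-!
# The theorem of Carter and Keller

Primes in progressions make every row a square up to sign, and every square of a block short; then
reduction of a larger matrix to a block finishes the proof.
-/

set_option autoImplicit false

noncomputable section

namespace FA.CarterKeller

open Matrix Finset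

theorem emb_transpose (a b c d : ℤ) : (emb a b c d)ᵀ = emb a c b d := by
  ext i j
  fin_cases i <;> fin_cases j <;> simp [emb]

theorem isCoprime_of_completion {a b c d : ℤ} (e : a * d - b * c = 1) : IsCoprime a b :=
  ⟨d, -c, by linear_combination e⟩

/-- Powers of a multiple of `p - 1` are short. -/
theorem short_pow_prime {p : ℕ} (hp : p.Prime) {u c d : ℤ} (e : u * d - (p : ℤ) * c = 1) {k : ℕ}
    (hk : p - 1 ∣ 2 * k) : Short 107 (emb u p c d ^ (2 * k)) := by
  obtain ⟨t, ht⟩ := hk
  have h : (p : ℤ) ∣ u ^ (2 * k) - 1 := by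
    rw [ht, pow_mul]
    refine dvd_trans ?_ (sub_one_dvd_pow_sub_one _ t)
    have : Fact p.Prime := ⟨hp⟩
    have hu : (u : ZMod p) ≠ 0 := fun h0 => by
      have := congrArg (Int.cast : ℤ → ZMod p) e
      simp [h0] at this
    rw [← ZMod.intCast_zmod_eq_zero_iff_dvd]
    push_cast
    rw [ZMod.pow_card_sub_one_eq_one hu, sub_self]
  exact good_pow e k ((good_one (p : ℤ)).congr_left h)

theorem coprime_gcd_two {p q : ℕ} (hp3 : p % 4 = 3) (hq3 : q % 4 = 3)
    (h : ∀ l : ℕ, l.Prime → l ≠ 2 → l ∣ p - 1 → ¬ l ∣ q - 1) :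
    ∃ i j : ℕ, i * (p - 1) = j * (q - 1) + 2 := by
  have hr : p - 1 = 2 * ((p - 1) / 2) := by omega
  have hr' : q - 1 = 2 * ((q - 1) / 2) := by omega
  set r := (p - 1) / 2
  set r' := (q - 1) / 2
  have hcop : Nat.Coprime r r' := by
    refine Nat.coprime_of_dvd fun l hl hlr hlr' => ?_
    rcases eq_or_ne l 2 with rfl | hl2
    · omega
    · exact h l hl hl2 (hr ▸ hlr.mul_left 2) (hr' ▸ hlr'.mul_left 2)
  rcases Nat.lt_or_ge 1 r' with h1 | h1
  · obtain ⟨i, hi⟩ := Nat.exists_mul_mod_eq_one_of_coprime hcop h1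
    refine ⟨i, r * i / r', ?_⟩
    have := Nat.mod_add_div (r * i) r'
    rw [hr, hr']
    rw [hi.2] at this
    linarith [mul_comm r' (r * i / r'), mul_comm r i]
  · have hr1 : r' = 1 := by omega
    refine ⟨1, r - 1, ?_⟩
    rw [hr, hr', hr1]
    omega

/-- **Some completion of a row with prime second entry has short square.** -/
theorem good_sq_prime {p : ℕ} (hp : p.Prime) (hp3 : p % 4 = 3) {u : ℕ} (hu : Odd u)
    (hup : Nat.Coprime u p) : Good 271 ((u : ℤ) ^ 2) p := by
  classical
  obtain ⟨c₀, d₀, e₀⟩ := exists_completion (Nat.isCoprime_iff_coprime.2 hup)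
  set N := 4 * ∏ l ∈ ((p - 1) / 2).primeFactors.filter (fun l => ¬ l ∣ u), l
  have huN : Nat.Coprime u N := by
    refine Nat.Coprime.mul_right (Nat.Coprime.pow_right 2 hu.coprime_two_right : u.Coprime (2 ^ 2))
      (Nat.Coprime.prod_right fun l hl => ?_)
    obtain ⟨h1, h2⟩ := Finset.mem_filter.1 hl
    exact ((Nat.prime_of_mem_primeFactors h1).coprime_iff_not_dvd.2 h2).symm
  have hN0 : N ≠ 0 := Nat.mul_ne_zero (by norm_num) (Finset.prod_ne_zero_iff.2 fun l hl =>
    (Nat.prime_of_mem_primeFactors (Finset.mem_filter.1 hl).1).ne_zero)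
  obtain ⟨v, w, hvw⟩ := Nat.isCoprime_iff_coprime.2 huN
  set z : ℤ := c₀ + u * (v * (-1 - c₀))
  have hzN : z = -1 + N * (-(w * (-1 - c₀))) := by
    simp only [z]
    linear_combination (-1 - c₀) * hvw
  have hz : IsCoprime z (u * N : ℤ) := IsCoprime.mul_right
    (by simpa [z] using ((isCoprime_of_completion
      (show c₀ * (-(p : ℤ)) - (u : ℤ) * (-d₀) = 1 by linear_combination e₀)).add_mul_left_left
        (v * (-1 - c₀))))
    (by rw [hzN]; exact isCoprime_one_left.neg_left.add_mul_left_left _)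
  obtain ⟨q, hq2, hq, hqz⟩ := Nat.forall_exists_prime_gt_and_zmodEq 2 (q := u * N)
    (Nat.mul_ne_zero hu.pos.ne' hN0) (by exact_mod_cast hz)
  obtain ⟨t, ht⟩ := hqz.symm.dvd
  push_cast at ht
  have hqN : (N : ℤ) ∣ (q : ℤ) + 1 :=
    ⟨(u : ℤ) * t - w * (-1 - c₀), by linear_combination ht + hzN⟩
  have hq3 : q % 4 = 3 := by
    have : ((4 : ℕ) : ℤ) ∣ ((q + 1 : ℕ) : ℤ) := by
      push_cast
      exact dvd_trans (by simp only [N]; push_cast; exact dvd_mul_right 4 _) hqN
    have := Int.natCast_dvd_natCast.1 this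
    omega
  obtain ⟨i, j, hij⟩ := coprime_gcd_two hp3 hq3 fun l hl hl2 hlp hlq => by
    have hlr : l ∣ (p - 1) / 2 := by
      have : l ∣ 2 * ((p - 1) / 2) := by rwa [show 2 * ((p - 1) / 2) = p - 1 by omega]
      exact (hl.dvd_mul.1 this).resolve_left fun h =>
        hl2 ((Nat.prime_dvd_prime_iff_eq hl Nat.prime_two).1 h)
    have hlq' : (l : ℤ) ∣ (q : ℤ) + 1 := by
      by_cases hlu : l ∣ u
      · have h1 : (l : ℤ) ∣ (q : ℤ) - c₀ := (Int.natCast_dvd_natCast.2 hlu).trans
          ⟨v * (-1 - c₀) + N * t, by simp only [z] at ht; linear_combination ht⟩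
        have h2 : (l : ℤ) ∣ (p : ℤ) - 1 := by
          have := Int.natCast_dvd_natCast.2 hlp
          rwa [Nat.cast_sub hp.one_le, Nat.cast_one] at this
        have h3 : (l : ℤ) ∣ (u : ℤ) * d₀ := (Int.natCast_dvd_natCast.2 hlu).mul_right _
        have := (h1.add h3).sub (h2.mul_right c₀)
        rwa [show (q : ℤ) - c₀ + (u : ℤ) * d₀ - ((p : ℤ) - 1) * c₀ = q + 1 by
          linear_combination e₀] at this
      · refine dvd_trans ?_ hqN
        exact Int.natCast_dvd_natCast.2 (Dvd.dvd.mul_left (Finset.dvd_prod_of_mem _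
          (Finset.mem_filter.2 ⟨Nat.mem_primeFactors.2 ⟨hl, hlr, by omega⟩, hlu⟩)) 4)
    have h2 : (l : ℤ) ∣ 2 := by
      have := hlq'.sub (Int.natCast_dvd_natCast.2 hlq)
      rwa [Nat.cast_sub hq.one_le, Nat.cast_one,
        show (q : ℤ) + 1 - ((q : ℤ) - 1) = 2 by ring] at this
    exact hl2 ((Nat.prime_dvd_prime_iff_eq hl Nat.prime_two).1 (Int.natCast_dvd_natCast.1 h2))
  set d := d₀ + p * (v * (-1 - c₀) + N * t)
  have eB : (u : ℤ) * d - (p : ℤ) * q = 1 := by
    simp only [d, z] at ht ⊢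
    linear_combination e₀ - (p : ℤ) * ht
  have h1 : Short 107 (emb u p q d ^ (i * (p - 1))) := by
    have := short_pow_prime hp eB (k := i * ((p - 1) / 2))
      ⟨i, by rw [mul_left_comm, show 2 * ((p - 1) / 2) = p - 1 by omega, mul_comm]⟩
    rwa [mul_left_comm, show 2 * ((p - 1) / 2) = p - 1 by omega] at this
  have h2 : Short 107 (emb u p q d ^ (j * (q - 1))) := by
    have := (short_pow_prime hq (show (u : ℤ) * d - (q : ℤ) * p = 1 by linear_combination eB)
      (k := j * ((q - 1) / 2))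
      ⟨j, by rw [mul_left_comm, show 2 * ((q - 1) / 2) = q - 1 by omega, mul_comm]⟩).transpose
    rwa [transpose_pow, emb_transpose, mul_left_comm,
      show 2 * ((q - 1) / 2) = q - 1 by omega] at this
  have h3 : Short 214 (emb u p q d ^ 2) := by
    have h : Short 107 (emb u p q d ^ (j * (q - 1)) * emb u p q d ^ 2) := by
      rwa [← pow_add, ← hij]
    exact (Short.of_mul h2 (short_one (k := 0)) (M := emb u p q d ^ 2)
      (by rwa [mul_one])).mono (by norm_num)
  exact good_sq eB h3

/-- **Every block is short in `SL 3 ℤ`.** -/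
theorem good_all {a b : ℤ} (h : IsCoprime a b) : Good 298 a b := by
  rcases eq_or_ne b 0 with rfl | hb
  · rcases Int.isUnit_iff.1 (isCoprime_zero_right.1 h) with rfl | rfl
    · exact (good_one 0).mono (by norm_num)
    · exact (good_neg_one 0).mono (by norm_num)
  obtain ⟨a', ⟨s, hs⟩, hpos, hodd⟩ : ∃ a', b ∣ a - a' ∧ 0 < a' ∧ Odd a' := by
    have hb2 : 1 ≤ b * b := mul_self_pos.2 hb
    rcases Int.even_or_odd a with ha | ha
    · have hbo : Odd b := by
        refine (Int.even_or_odd b).resolve_left fun hbe => ?_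
        exact absurd (h.isUnit_of_dvd' (even_iff_two_dvd.1 ha) (even_iff_two_dvd.1 hbe))
          (by decide)
      refine ⟨a + b * b * (2 * |a| + 1), ⟨-(b * (2 * |a| + 1)), by ring⟩, ?_,
        ha.add_odd ((hbo.mul hbo).mul (odd_two_mul_add_one |a|))⟩
      nlinarith [abs_nonneg a, neg_abs_le a]
    · refine ⟨a + b * b * (2 * (|a| + 1)), ⟨-(b * (2 * (|a| + 1))), by ring⟩, ?_,
        ha.add_even ((even_two_mul _).mul_left _)⟩
      nlinarith [abs_nonneg a, neg_abs_le a]
  have hab : IsCoprime a' b := by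
    rw [show a' = a + b * (-s) by linear_combination -hs]
    exact h.add_mul_left_left _
  set z := b + a' ^ 2 * (3 - b)
  obtain ⟨m, hm⟩ := hodd
  have hz : IsCoprime z (a' * 4) := IsCoprime.mul_right
    (by rw [show z = b + a' * (a' * (3 - b)) by simp only [z]; ring]
        exact hab.symm.add_mul_left_left _)
    (by rw [show z = -1 + 4 * (1 + (m ^ 2 + m) * (3 - b)) by simp only [z, hm]; ring]
        exact isCoprime_one_left.neg_left.add_mul_left_left _)
  lift a' to ℕ using hpos.le
  obtain ⟨p, hp2, hp, hpz⟩ := Nat.forall_exists_prime_gt_and_zmodEq a' (q := a' * 4) (a := z)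
    (by omega) (by exact_mod_cast hz)
  obtain ⟨t, ht⟩ := hpz.symm.dvd
  push_cast at ht
  have hp3 : p % 4 = 3 := by
    have : (p : ℤ) = 4 * (a' * t + 1 + (m ^ 2 + m) * (3 - b)) - 1 := by
      simp only [z] at ht
      rw [hm] at ht ⊢
      linear_combination ht
    omega
  have : Fact p.Prime := ⟨hp⟩
  have hap : ((a' : ℕ) : ZMod p) ≠ 0 := fun h0 =>
    (Nat.le_of_dvd (by omega) ((ZMod.natCast_eq_zero_iff _ _).1 h0)).not_gt hp2
  obtain ⟨ε, hε, x, hx⟩ : ∃ ε : ℤ, (ε = 1 ∨ ε = -1) ∧ IsSquare ((ε * a' : ℤ) : ZMod p) := by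
    rcases ZMod.pow_div_two_eq_neg_one_or_one p hap with h1 | h1
    · exact ⟨1, Or.inl rfl, by simpa using (ZMod.euler_criterion p hap).2 h1⟩
    · refine ⟨-1, Or.inr rfl, ?_⟩
      push_cast
      rw [neg_one_mul]
      exact (ZMod.euler_criterion p (neg_ne_zero.2 hap)).2
        (by rw [Odd.neg_pow (Nat.odd_iff.2 (by omega)), h1, neg_neg])
  obtain ⟨u, hu, hux⟩ : ∃ u : ℕ, Odd u ∧ (u : ZMod p) = x := by
    rcases Nat.even_or_odd x.val with hv | hv
    · exact ⟨x.val + p, hv.add_odd (Nat.odd_iff.2 (by omega)), by simp⟩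
    · exact ⟨x.val, hv, by simp⟩
  have hup : Nat.Coprime u p := by
    refine (hp.coprime_iff_not_dvd.2 fun hd => hap ?_).symm
    rw [(ZMod.natCast_eq_zero_iff _ _).2 hd] at hux
    rcases hε with rfl | rfl <;> simpa [← hux] using hx
  have hd : (p : ℤ) ∣ ε * a' - (u : ℤ) ^ 2 := by
    rw [← ZMod.intCast_zmod_eq_zero_iff_dvd]
    push_cast
    rw [hux, sq, sub_eq_zero]
    simpa using hx
  have h1 : Good 272 (ε * a') p := (good_sq_prime hp hp3 hu hup).congr_left hd
  have hcop : IsCoprime (a' : ℤ) p := Nat.isCoprime_iff_coprime.2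
    (hp.coprime_iff_not_dvd.2 fun hd' => hap ((ZMod.natCast_eq_zero_iff _ _).2 hd')).symm
  have h2 : Good 294 (a' : ℤ) p := by
    rcases hε with rfl | rfl
    · simpa using h1.mono (by norm_num : 272 ≤ 294)
    · simpa using h1.neg (by simpa using hcop.neg_left)
  have h3 : Good 295 (a' : ℤ) b := h2.congr_right
    ⟨-((a' : ℤ) * (3 - b) + 4 * t), by simp only [z] at ht; linear_combination (-1 : ℤ) * ht⟩
  exact (h3.congr_left ⟨s, hs⟩).mono (by norm_num)

theorem short_emb {a b c d : ℤ} (e : a * d - b * c = 1) : Short 298 (emb a b c d) :=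
  good_all (isCoprime_of_completion e) c d e

/-- A matrix supported in the first two indices is short. -/
theorem short_of_supported_two {m : ℕ} (M : Matrix (Fin (3 + m)) (Fin (3 + m)) ℤ)
    (hdet : M.det = 1) (hM : Supported ((Finset.univ : Finset (Fin (3 + m))).filter
      fun i => i.val < 2) M) : Short 298 M := by
  let e := finSumFinEquiv (m := 3) (n := m)
  set X := (reindexAlgEquiv ℤ ℤ e).symm M
  have hX : ∀ i j, X i j = M (e i) (e j) := fun i j => by simp [X]
  have h11 : X.toBlocks₁₁ = emb (X (.inl 0) (.inl 0)) (X (.inl 0) (.inl 1)) (X (.inl 1) (.inl 0))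
      (X (.inl 1) (.inl 1)) := by
    ext i j
    fin_cases i <;> fin_cases j <;> simp [emb, toBlocks₁₁, hX] <;>
      (rw [hM _ _ (by simp [e, finSumFinEquiv])]; simp [one_apply, e, finSumFinEquiv, Fin.ext_iff])
  have hblock : X = fromBlocks X.toBlocks₁₁ 0 0 (1 : Matrix (Fin m) (Fin m) ℤ) := by
    ext (i | i) (j | j)
    · rfl
    all_goals
      rw [hX, hM _ _ (by simp [e, finSumFinEquiv]; try omega)]
      simp [one_apply, e, finSumFinEquiv, Fin.ext_iff]
      try omega
  have hd : X.toBlocks₁₁.det = 1 := by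
    have : X.det = 1 := by simp [X, hdet]
    rw [hblock, det_fromBlocks_zero₂₁, det_one, mul_one] at this
    exact this
  rw [h11] at hd hblock
  simp [emb, det_fin_three] at hd
  have := ((short_emb (show X (.inl 0) (.inl 0) * X (.inl 1) (.inl 1) -
    X (.inl 0) (.inl 1) * X (.inl 1) (.inl 0) = 1 by
      linear_combination hd)).sumInl (Fin m)).reindex e
  rw [← hblock] at this
  simpa [X] using this

theorem short_reduce {m : ℕ} : ∀ t : ℕ, t ≤ m + 1 → ∀ M : Matrix (Fin (3 + m)) (Fin (3 + m)) ℤ,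
    M.det = 1 → Supported ((Finset.univ : Finset (Fin (3 + m))).filter fun i => i.val < 2 + t) M →
      Short (298 + t * (3 * (3 + m) + 1)) M := by
  intro t
  induction t with
  | zero => exact fun _ M hd hM => by simpa using short_of_supported_two M hd hM
  | succ t ih =>
    intro ht M hd hM
    set s := (Finset.univ : Finset (Fin (3 + m))).filter fun i => i.val < 2 + (t + 1) with hs
    let r : Fin (3 + m) := ⟨2 + t, by omega⟩
    have hr : r ∈ s := by simp [hs, r]
    have hcard : 3 ≤ s.card := by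
      have : ({⟨0, by omega⟩, ⟨1, by omega⟩, ⟨2, by omega⟩} : Finset (Fin (3 + m))) ⊆ s := by
        intro i hi
        simp only [Finset.mem_insert, Finset.mem_singleton] at hi
        rcases hi with rfl | rfl | rfl <;> simp [hs] <;> omega
      exact le_trans (by simp) (card_le_card this)
    obtain ⟨P, Q, hP, hQ, hPQ⟩ := exists_reduce hcard hM hd hr
    have he : s.erase r =
        (Finset.univ : Finset (Fin (3 + m))).filter fun i => i.val < 2 + t := by
      ext i
      simp [hs, r, Fin.ext_iff]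
      omega
    rw [he] at hPQ
    have hle : s.card ≤ 3 + m := le_trans (card_le_univ s) (by simp)
    refine (hP.of_mul hQ (ih (by omega) _ ?_ hPQ)).mono (by rw [add_one_mul]; omega)
    rw [det_mul, det_mul, hP.det, hQ.det, hd]
    norm_num

/-- **Carter–Keller.** -/
theorem short_of_det {n : ℕ} (hn : 3 ≤ n) (M : Matrix (Fin n) (Fin n) ℤ) (hd : M.det = 1) :
    Short (298 + (n - 2) * (3 * n + 1)) M := by
  obtain ⟨m, rfl⟩ := Nat.exists_eq_add_of_le hn
  rw [show 3 + m - 2 = m + 1 by omega]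
  exact short_reduce (m + 1) le_rfl M hd fun i j h => absurd h (by simp; omega)

end FA.CarterKeller

end
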