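import Mathlib.LinearAlgebra.Matrix.Transvection
import Mathlib.LinearAlgebra.Matrix.Adjugate
import Mathlib.Algebra.BigOperators.Associated
import Mathlib.Data.Int.GCD
import Mathlib.Algebra.GCDMonoid.Finset
import Mathlib.RingTheory.Coprime.Lemmas
import Mathlib.RingTheory.Int.Basic
import Mathlib.Tactic.Linarith
import Mathlib.Tactic.LinearCombination

/-!
# Short products of transvections

Row and column reduction of an integral matrix of determinant one down to a `2 × 2` block costs a
number of transvections depending only on the size.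
-/

set_option autoImplicit false

noncomputable section

namespace FA.CarterKeller

open Matrix Finset

variable {n : Type*} [Fintype n] [DecidableEq n]

/-- A product of at most `k` transvections. -/
def Short (k : ℕ) (M : Matrix n n ℤ) : Prop :=
  ∃ L : List (TransvectionStruct n ℤ), L.length ≤ k ∧ M = (L.map TransvectionStruct.toMatrix).prod

theorem short_one {k : ℕ} : Short k (1 : Matrix n n ℤ) := ⟨[], by simp, by simp⟩

theorem short_transvection {i j : n} (h : i ≠ j) (c : ℤ) : Short 1 (transvection i j c) :=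
  ⟨[⟨i, j, h, c⟩], by simp, by simp⟩

theorem Short.mono {k l : ℕ} {M : Matrix n n ℤ} (h : Short k M) (hkl : k ≤ l) : Short l M :=
  h.imp fun _ hL => ⟨hL.1.trans hkl, hL.2⟩

theorem Short.mul {k l : ℕ} {M N : Matrix n n ℤ} (h : Short k M) (h' : Short l N) :
    Short (k + l) (M * N) := by
  obtain ⟨L, hL, rfl⟩ := h
  obtain ⟨L', hL', rfl⟩ := h'
  exact ⟨L ++ L', by simpa using add_le_add hL hL', by simp⟩

theorem Short.exists_inv {k : ℕ} {M : Matrix n n ℤ} (h : Short k M) :
    ∃ M', Short k M' ∧ M' * M = 1 ∧ M * M' = 1 := by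
  obtain ⟨L, hL, rfl⟩ := h
  refine ⟨_, ⟨L.reverse.map TransvectionStruct.inv, by simpa using hL, rfl⟩, ?_, ?_⟩
  · rw [List.map_map]
    exact TransvectionStruct.reverse_inv_prod_mul_prod L
  · rw [List.map_map]
    exact TransvectionStruct.prod_mul_reverse_inv_prod L

/-- Cancelling short factors on both sides. -/
theorem Short.of_mul {k l m : ℕ} {P M Q : Matrix n n ℤ} (hP : Short k P) (hQ : Short l Q)
    (h : Short m (P * M * Q)) : Short (k + m + l) M := by
  obtain ⟨P', hP', h1, -⟩ := hP.exists_inv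
  obtain ⟨Q', hQ', -, h2⟩ := hQ.exists_inv
  have e : M = P' * (P * M * Q) * Q' := by
    rw [mul_assoc P M Q, ← mul_assoc P' P, h1, one_mul, mul_assoc, h2, mul_one]
  rw [e]
  exact (hP'.mul h).mul hQ'

theorem Short.transpose {k : ℕ} {M : Matrix n n ℤ} (h : Short k M) : Short k Mᵀ := by
  obtain ⟨L, hL, rfl⟩ := h
  induction L generalizing k with
  | nil => simpa using short_one
  | cons t L ih =>
    obtain ⟨k, rfl⟩ := Nat.exists_eq_succ_of_ne_zero (n := k) (by simp at hL; omega)
    rw [List.map_cons, List.prod_cons, transpose_mul]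
    refine (ih (k := k) (by simpa using hL)).mul (l := 1) ?_
    have e : t.toMatrixᵀ = transvection t.j t.i t.c := by
      ext a b
      simp [TransvectionStruct.toMatrix, transvection, one_apply, eq_comm, and_comm, single]
    rw [e]
    exact short_transvection t.hij.symm t.c

theorem Short.det {k : ℕ} {M : Matrix n n ℤ} (h : Short k M) : M.det = 1 := by
  obtain ⟨L, -, rfl⟩ := h
  exact TransvectionStruct.det_toMatrix_prod L

theorem Short.sumInl {k : ℕ} {M : Matrix n n ℤ} (h : Short k M) (p : Type*) [Fintype p]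
    [DecidableEq p] : Short k (fromBlocks M 0 0 (1 : Matrix p p ℤ)) := by
  obtain ⟨L, hL, rfl⟩ := h
  refine ⟨L.map (TransvectionStruct.sumInl p), by simpa using hL, ?_⟩
  rw [List.map_map]
  have := TransvectionStruct.sumInl_toMatrix_prod_mul p (1 : Matrix n n ℤ) L (1 : Matrix p p ℤ)
  rw [fromBlocks_one, mul_one, mul_one] at this
  exact this.symm

theorem Short.reindex {k : ℕ} {M : Matrix n n ℤ} (h : Short k M) {p : Type*} [Fintype p]
    [DecidableEq p] (e : n ≃ p) : Short k (reindexAlgEquiv ℤ _ e M) := by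
  obtain ⟨L, hL, rfl⟩ := h
  refine ⟨L.map (TransvectionStruct.reindexEquiv e), by simpa using hL, ?_⟩
  rw [List.map_map, TransvectionStruct.toMatrix_reindexEquiv_prod]

/-- The column operations adding multiples of the columns in `s` to column `r`. -/
def colOp (s : Finset n) (r : n) (c : n → ℤ) : Matrix n n ℤ := 1 + ∑ j ∈ s, single j r (c j)

theorem short_colOp {s : Finset n} {r : n} (hr : r ∉ s) (c : n → ℤ) :
    Short s.card (colOp s r c) := by
  induction s using Finset.induction_on with
  | empty => simpa [colOp] using short_one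
  | insert a s ha ih =>
    simp only [Finset.mem_insert, not_or] at hr
    have e : colOp (insert a s) r c = transvection a r (c a) * colOp s r c := by
      have h0 : single a r (c a) * ∑ j ∈ s, single j r (c j) = 0 := by
        rw [Finset.mul_sum]
        exact Finset.sum_eq_zero fun j hj =>
          single_mul_single_of_ne (c a) a r j (fun (e : r = j) => hr.2 (e ▸ hj)) (c j)
      simp only [colOp, transvection, Finset.sum_insert ha, add_mul, mul_add, one_mul, mul_one, h0]
      abel
    rw [e, Finset.card_insert_of_notMem ha, add_comm]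
    exact (short_transvection (Ne.symm hr.1) _).mul (ih hr.2)

theorem mul_colOp_apply (M : Matrix n n ℤ) (s : Finset n) (r : n) (c : n → ℤ) (i k : n) :
    (M * colOp s r c) i k = M i k + if k = r then ∑ j ∈ s, M i j * c j else 0 := by
  rw [colOp, mul_add, mul_one, Matrix.add_apply, Finset.mul_sum, Matrix.sum_apply]
  congr 1
  split_ifs with h
  · exact Finset.sum_congr rfl fun j _ => by rw [h, mul_single_apply_same]
  · exact Finset.sum_eq_zero fun j _ => mul_single_apply_of_ne (c j) j r i k h M

/-- `M` is the identity outside of the indices in `s`. -/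
def Supported (s : Finset n) (M : Matrix n n ℤ) : Prop :=
  ∀ i j, i ∉ s ∨ j ∉ s → M i j = (1 : Matrix n n ℤ) i j

theorem Supported.mul_colOp {s t : Finset n} {M : Matrix n n ℤ} (hM : Supported s M) {r : n}
    (hr : r ∈ s) (ht : t ⊆ s) (hrt : r ∉ t) (c : n → ℤ) : Supported s (M * colOp t r c) := by
  intro i j hij
  rw [mul_colOp_apply, hM i j hij]
  rcases eq_or_ne j r with rfl | hj
  · rw [if_pos rfl, Finset.sum_eq_zero fun l hl => ?_, add_zero]
    have hi : i ∉ s := hij.resolve_right fun h => h hr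
    rw [hM i l (Or.inl hi), one_apply_ne fun e => hi (by rw [e]; exact ht hl), zero_mul]
  · rw [if_neg hj, add_zero]

omit [Fintype n] in
theorem Supported.transpose {s : Finset n} {M : Matrix n n ℤ} (hM : Supported s M) :
    Supported s Mᵀ := fun i j h => by
  rw [transpose_apply, hM j i h.symm, one_apply, one_apply]
  exact if_congr eq_comm rfl rfl

/-- Clearing the row `r` once its diagonal entry is one, then the column. -/
theorem supported_clear {s : Finset n} {M : Matrix n n ℤ} (hM : Supported s M) {r : n}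
    (h1 : M r r = 1) :
    Supported (s.erase r) (colOp (s.erase r) r (fun i => -M i r) * M *
      (colOp (s.erase r) r fun i => -M r i)ᵀ) := by
  let R := colOp (s.erase r) r fun i => -M r i
  let C := colOp (s.erase r) r fun i => -M i r
  show Supported (s.erase r) (C * M * Rᵀ)
  have hQ : ∀ i k, (M * Rᵀ) i k =
      M i k + if k ∈ s.erase r then M i r * -M r k else 0 := fun i k => by
    simp only [R, colOp, transpose_add, transpose_one, transpose_sum, transpose_single, mul_add,
      mul_one, Matrix.add_apply, Finset.mul_sum, Matrix.sum_apply]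
    congr 1
    split_ifs with hk
    · rw [Finset.sum_eq_single_of_mem k hk fun j _ hj =>
        mul_single_apply_of_ne _ r j i k (Ne.symm hj) M, mul_single_apply_same]
    · exact Finset.sum_eq_zero fun j hj =>
        mul_single_apply_of_ne _ r j i k (fun (e : k = j) => hk (e ▸ hj)) M
  have hP : ∀ (X : Matrix n n ℤ) i k, (C * X) i k =
      X i k + if i ∈ s.erase r then -M i r * X r k else 0 := fun X i k => by
    simp only [C, colOp, add_mul, one_mul, Matrix.add_apply, Finset.sum_mul, Matrix.sum_apply]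
    congr 1
    split_ifs with hi
    · rw [Finset.sum_eq_single_of_mem i hi fun j _ hj =>
        single_mul_apply_of_ne _ j r i k (Ne.symm hj) X, single_mul_apply_same]
    · exact Finset.sum_eq_zero fun j hj =>
        single_mul_apply_of_ne _ j r i k (fun (e : i = j) => hi (e ▸ hj)) X
  have hrow : ∀ k, (M * Rᵀ) r k = (1 : Matrix n n ℤ) r k := fun k => by
    rw [hQ, h1]
    split_ifs with hk
    · rw [one_apply_ne (ne_of_mem_erase hk).symm]
      ring
    · rcases eq_or_ne k r with rfl | hkr
      · simp [h1]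
      · rw [add_zero, hM r k (Or.inr fun hks => hk (mem_erase.2 ⟨hkr, hks⟩))]
  intro i k hik
  rw [mul_assoc, hP, hrow]
  rcases eq_or_ne i r with rfl | hir
  · rw [if_neg (notMem_erase _ _), add_zero, hrow]
  rcases eq_or_ne k r with rfl | hkr
  · rw [hQ, if_neg (notMem_erase _ _), add_zero, one_apply_eq, mul_one]
    split_ifs with hi
    · rw [one_apply_ne hir]
      ring
    · rw [add_zero, hM i k (Or.inl fun his => hi (mem_erase.2 ⟨hir, his⟩))]
  rw [one_apply_ne hkr.symm, mul_zero, ite_self, add_zero, hQ]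
  rcases hik with hi | hk
  · have hi' : i ∉ s := fun his => hi (mem_erase.2 ⟨hir, his⟩)
    rw [hM i r (Or.inl hi'), one_apply_ne hir, zero_mul, ite_self, add_zero, hM i k (Or.inl hi')]
  · rw [if_neg hk, add_zero, hM i k (Or.inr fun hks => hk (mem_erase.2 ⟨hkr, hks⟩))]

/-- The two clearing factors are short. -/
theorem exists_clear {s : Finset n} {M : Matrix n n ℤ} (hM : Supported s M) {r : n}
    (h1 : M r r = 1) :
    ∃ P Q : Matrix n n ℤ, Short (s.erase r).card P ∧ Short (s.erase r).card Q ∧
      Supported (s.erase r) (P * M * Q) :=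
  ⟨_, _, short_colOp (notMem_erase r s) _, (short_colOp (notMem_erase r s) _).transpose,
    supported_clear hM h1⟩

/-- Making the entries of a row other than one coprime. -/
theorem exists_coprime_shift {ι : Type*} (t : Finset ι) (f : ι → ℤ) (x y : ℤ) (hg : t.gcd f ≠ 0)
    (h : ∀ d : ℤ, d ∣ x → d ∣ y → d ∣ t.gcd f → IsUnit d) :
    ∃ c : ℤ, IsCoprime (x + c * y) (t.gcd f) := by
  classical
  let T := (t.gcd f).natAbs.primeFactors.filter fun p : ℕ => ¬ (p : ℤ) ∣ x
  refine ⟨∏ p ∈ T, (p : ℤ), (Int.isCoprime_iff_gcd_eq_one).2 ?_⟩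
  by_contra hne
  obtain ⟨p, hp, hpd⟩ := Nat.exists_prime_and_dvd hne
  have hpx : (p : ℤ) ∣ x + (∏ p ∈ T, (p : ℤ)) * y :=
    (Int.natCast_dvd_natCast.2 hpd).trans (Int.gcd_dvd_left _ _)
  have hpg : (p : ℤ) ∣ t.gcd f := (Int.natCast_dvd_natCast.2 hpd).trans (Int.gcd_dvd_right _ _)
  have hp' : Prime (p : ℤ) := Nat.prime_iff_prime_int.1 hp
  by_cases hx : (p : ℤ) ∣ x
  · rcases hp'.dvd_or_dvd ((Int.dvd_add_right hx).1 hpx) with hT | hy
    · obtain ⟨q, hq, hpq⟩ := hp'.exists_mem_finset_dvd hT
      obtain ⟨hq1, hq2⟩ := Finset.mem_filter.1 hq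
      have e : p = q := (Nat.prime_dvd_prime_iff_eq hp (Nat.prime_of_mem_primeFactors hq1)).1
        (Int.natCast_dvd_natCast.1 hpq)
      exact hq2 (e ▸ hx)
    · exact hp'.not_isUnit (h _ hx hy hpg)
  · have hmem : p ∈ T := Finset.mem_filter.2
      ⟨Nat.mem_primeFactors.2 ⟨hp, Int.natCast_dvd.1 hpg, Int.natAbs_ne_zero.2 hg⟩, hx⟩
    have : (p : ℤ) ∣ (∏ p ∈ T, (p : ℤ)) * y :=
      Dvd.dvd.mul_right (Finset.dvd_prod_of_mem _ hmem) y
    exact hx ((Int.dvd_add_left this).1 hpx)

/-- **One step of the reduction.** -/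
theorem exists_reduce {s : Finset n} (hs : 3 ≤ s.card) {M : Matrix n n ℤ} (hM : Supported s M)
    (hdet : M.det = 1) {r : n} (hr : r ∈ s) :
    ∃ P Q : Matrix n n ℤ, Short s.card P ∧ Short (2 * s.card + 1) Q ∧
      Supported (s.erase r) (P * M * Q) := by
  classical
  have hunit : ∀ d : ℤ, (∀ j ∈ s, d ∣ M r j) → IsUnit d := fun d hd => by
    have e := congrFun (congrFun (mul_adjugate M) r) r
    rw [hdet, one_smul, one_apply_eq, Matrix.mul_apply] at e
    refine isUnit_of_dvd_one (e ▸ Finset.dvd_sum fun j _ => Dvd.dvd.mul_right ?_ _)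
    by_cases hj : j ∈ s
    · exact hd j hj
    · rw [hM r j (Or.inr hj), one_apply_ne fun e => hj (by rw [← e]; exact hr)]
      exact dvd_zero d
  obtain ⟨i₀, hi₀⟩ : (s.erase r).Nonempty := card_pos.1 (by rw [card_erase_of_mem hr]; omega)
  obtain ⟨i₁, hi₁⟩ : ((s.erase r).erase i₀).Nonempty :=
    card_pos.1 (by rw [card_erase_of_mem hi₀, card_erase_of_mem hr]; omega)
  set mid := (s.erase r).erase i₀ with hmid
  have split : ∀ j ∈ s, j = r ∨ j = i₀ ∨ j ∈ mid := fun j hj => by
    simp only [hmid, mem_erase]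
    tauto
  obtain ⟨a, c, ha, hcop⟩ : ∃ a c, a ∈ s.erase r ∧ ∀ d : ℤ, d ∣ M r a + c * M r r →
      (∀ j ∈ (s.erase r).erase a, d ∣ M r j) → IsUnit d := by
    by_cases hg : mid.gcd (M r) = 0
    · refine ⟨i₁, 1, (mem_erase.1 hi₁).2, fun d hd hd' => hunit d fun j hj => ?_⟩
      have h0 := Finset.gcd_eq_zero_iff.1 hg
      rw [h0 i₁ hi₁, zero_add, one_mul] at hd
      rcases split j hj with rfl | rfl | hj'
      · exact hd
      · exact hd' _ (mem_erase.2 ⟨fun e => notMem_erase _ _ (e ▸ hi₁), hi₀⟩)
      · rw [h0 j hj']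
        exact dvd_zero d
    · obtain ⟨c, hc⟩ := exists_coprime_shift mid (M r) (M r i₀) (M r r) hg fun d h1 h2 h3 =>
        hunit d fun j hj => by
          rcases split j hj with rfl | rfl | hj'
          · exact h2
          · exact h1
          · exact h3.trans (Finset.gcd_dvd hj')
      exact ⟨i₀, c, hi₀, fun d hd hd' => hc.isUnit_of_dvd' hd (Finset.dvd_gcd hd')⟩
  have har : a ≠ r := ne_of_mem_erase ha
  let M₁ := M * colOp {r} a fun _ => c
  have hM₁ : Supported s M₁ := hM.mul_colOp (mem_of_mem_erase ha) (singleton_subset_iff.2 hr)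
    (by simpa using har) _
  have h1a : M₁ r a = M r a + c * M r r := by simp [M₁, mul_colOp_apply, mul_comm]
  have h1o : ∀ j, j ≠ a → M₁ r j = M r j := fun j hj => by simp [M₁, mul_colOp_apply, hj]
  obtain ⟨w, hw⟩ : ∃ w : n → ℤ, ∑ j ∈ s.erase r, M₁ r j * w j = 1 := by
    obtain ⟨w, hw⟩ : ∃ w : n → ℤ, (s.erase r).gcd (M₁ r) = ∑ j ∈ s.erase r, M₁ r j * w j :=
      Finset.gcd_eq_sum_mul (s.erase r) (M₁ r)
    have hu : IsUnit ((s.erase r).gcd (M₁ r)) := hcop _ (h1a ▸ Finset.gcd_dvd ha) fun j hj =>
      h1o j (ne_of_mem_erase hj) ▸ Finset.gcd_dvd (mem_of_mem_erase hj)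
    obtain ⟨u, hu⟩ := hu
    exact ⟨fun j => w j * (u⁻¹ : ℤˣ), by
      simp_rw [← mul_assoc, ← Finset.sum_mul, ← hw, ← hu, Units.mul_inv]⟩
  let M₂ := M₁ * colOp (s.erase r) r fun j => w j * (1 - M₁ r r)
  have hM₂ : Supported s M₂ := hM₁.mul_colOp hr (erase_subset r s) (notMem_erase r s) _
  have h2 : M₂ r r = 1 := by
    simp [M₂, mul_colOp_apply, ← mul_assoc, ← Finset.sum_mul, hw]
  obtain ⟨P, Q, hP, hQ, hsupp⟩ := exists_clear hM₂ h2
  refine ⟨P, colOp {r} a (fun _ => c) * colOp (s.erase r) r (fun j => w j * (1 - M₁ r r)) * Q,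
    hP.mono (card_le_card (erase_subset r s)),
    (((short_colOp (by simpa using har) _).mul (short_colOp (notMem_erase r s) _)).mul hQ).mono
      (by have := card_le_card (erase_subset r s); simp; omega), ?_⟩
  simpa [M₂, M₁, mul_assoc] using hsupp

end FA.CarterKeller

end
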