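import Fermat.Agent.CarterKeller.Short
import Mathlib.Data.Nat.Fib.Basic
import Mathlib.LinearAlgebra.Matrix.Determinant.Basic
import Mathlib.LinearAlgebra.Matrix.Notation

/-!
# No bound for `2 × 2` matrices

The number of Euclidean divisions of the first column changes by at most three under a transvection
and is unbounded.
-/

set_option autoImplicit false

noncomputable section

namespace FA.CarterKeller

open Matrix

/-- The number of divisions in the Euclidean algorithm. -/
def euclid (a c : ℕ) : ℕ :=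
  if h : c = 0 then 0 else 1 + euclid c (a % c)
  termination_by c
  decreasing_by exact Nat.mod_lt _ (Nat.pos_of_ne_zero h)

theorem euclid_zero (a : ℕ) : euclid a 0 = 0 := by rw [euclid]; simp

theorem euclid_of_ne {a c : ℕ} (h : c ≠ 0) : euclid a c = 1 + euclid c (a % c) := by
  conv_lhs => rw [euclid, dif_neg h]

theorem euclid_congr {a a' c : ℕ} (h : a % c = a' % c) : euclid a c = euclid a' c := by
  rcases eq_or_ne c 0 with rfl | hc
  · rw [euclid_zero, euclid_zero]
  · rw [euclid_of_ne hc, euclid_of_ne hc, h]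

theorem euclid_reflect {c s : ℕ} (hs : 0 < s) (h : 2 * s < c) :
    euclid c (c - s) = 1 + euclid c s := by
  have e : c % (c - s) = s := by
    rw [Nat.mod_eq_sub_mod (by omega), Nat.mod_eq_of_lt (by omega)]
    omega
  rw [euclid_of_ne (a := c) (by omega : c - s ≠ 0), e, euclid_congr (a' := c)]
  exact (Nat.mod_eq_sub_mod (by omega)).symm

theorem euclid_neg_le {c : ℕ} {a a' : ℕ} (h : (a + a') % c = 0) :
    euclid a c ≤ euclid a' c + 1 := by
  rcases eq_or_ne c 0 with rfl | hc
  · simp [euclid_zero]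
  rw [euclid_of_ne hc, euclid_of_ne (a := a') hc]
  have h1 := Nat.mod_lt a (Nat.pos_of_ne_zero hc)
  have h2 := Nat.mod_lt a' (Nat.pos_of_ne_zero hc)
  rw [Nat.add_mod] at h
  rcases lt_or_ge (a % c + a' % c) c with hlt | hge
  · rw [Nat.mod_eq_of_lt hlt] at h
    rw [show a % c = 0 by omega, show a' % c = 0 by omega]
    omega
  · rw [Nat.mod_eq_sub_mod hge, Nat.mod_eq_of_lt (by omega)] at h
    rcases lt_trichotomy (2 * (a % c)) c with hl | he | hg
    · have := euclid_reflect (c := c) (s := a % c) (by omega) hl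
      rw [show c - a % c = a' % c by omega] at this
      omega
    · rw [show a' % c = a % c by omega]
      omega
    · have := euclid_reflect (c := c) (s := a' % c) (by omega) (by omega)
      rw [show c - a' % c = a % c by omega] at this
      omega

theorem euclid_swap_le (a c : ℕ) : euclid a c ≤ euclid c a + 1 := by
  rcases eq_or_ne c 0 with rfl | hc
  · simp [euclid_zero]
  rcases lt_trichotomy a c with h | rfl | h
  · rw [euclid_of_ne hc, Nat.mod_eq_of_lt h]
    omega
  · omega
  · rw [euclid_of_ne (a := c) (c := a) (by omega), Nat.mod_eq_of_lt h]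
    omega

/-- The divisions of a pair of integers. -/
def steps (a c : ℤ) : ℕ := euclid a.natAbs c.natAbs

theorem steps_shift_le (a c t : ℤ) : steps (a + t * c) c ≤ steps a c + 1 := by
  unfold steps
  have key : (c.natAbs : ℤ) ∣ ((a + t * c).natAbs : ℤ) - (a.natAbs : ℤ) ∨
      (c.natAbs : ℤ) ∣ ((a + t * c).natAbs : ℤ) + (a.natAbs : ℤ) := by
    rcases Int.natAbs_eq (a + t * c) with h1 | h1 <;> rcases Int.natAbs_eq a with h2 | h2
    · exact Or.inl (Int.natAbs_dvd.2 ⟨t, by linarith [mul_comm c t]⟩)
    · exact Or.inr (Int.natAbs_dvd.2 ⟨t, by linarith [mul_comm c t]⟩)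
    · exact Or.inr (Int.natAbs_dvd.2 ⟨-t, by linarith [mul_comm c t]⟩)
    · exact Or.inl (Int.natAbs_dvd.2 ⟨-t, by linarith [mul_comm c t]⟩)
  rcases key with h | h
  · rw [euclid_congr ((Nat.modEq_iff_dvd.2 h).symm : (a + t * c).natAbs % c.natAbs = _)]
    omega
  · exact euclid_neg_le (Nat.mod_eq_zero_of_dvd (by exact_mod_cast h))

theorem steps_swap_le (a c : ℤ) : steps a c ≤ steps c a + 1 := euclid_swap_le _ _

theorem steps_of_short {N : ℕ} {M : Matrix (Fin 2) (Fin 2) ℤ} (h : Short N M) :
    steps (M 0 0) (M 1 0) ≤ 3 * N := by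
  obtain ⟨L, hL, rfl⟩ := h
  refine le_trans ?_ (Nat.mul_le_mul_left 3 hL)
  clear hL
  induction L with
  | nil => simp [steps, euclid_zero]
  | cons t L ih =>
    rw [List.map_cons, List.prod_cons, List.length_cons]
    set X := (L.map TransvectionStruct.toMatrix).prod
    obtain ⟨i, j, hij, c⟩ := t
    fin_cases i <;> fin_cases j <;> simp at hij
    · simp only [TransvectionStruct.toMatrix_mk, Fin.zero_eta, Fin.mk_one,
        transvection_mul_apply_same]
      rw [transvection_mul_apply_of_ne (0 : Fin 2) 1 (1 : Fin 2) (0 : Fin 2)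
        (by decide : (1 : Fin 2) ≠ 0) c X]
      have := steps_shift_le (X 0 0) (X 1 0) c
      omega
    · simp only [TransvectionStruct.toMatrix_mk, Fin.zero_eta, Fin.mk_one,
        transvection_mul_apply_same]
      rw [transvection_mul_apply_of_ne (1 : Fin 2) 0 (0 : Fin 2) (0 : Fin 2)
        (by decide : (0 : Fin 2) ≠ 1) c X]
      have h1 := steps_shift_le (X 1 0) (X 0 0) c
      have h2 := steps_swap_le (X 1 0) (X 0 0)
      have h3 := steps_swap_le (X 0 0) (X 1 0 + c * X 0 0)
      omega

theorem le_euclid_fib (k : ℕ) : k ≤ euclid (Nat.fib (k + 3)) (Nat.fib (k + 2)) := by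
  induction k with
  | zero => simp
  | succ k ih =>
    have h1 : Nat.fib (k + 2) < Nat.fib (k + 3) := Nat.fib_lt_fib_succ (by omega)
    show k + 1 ≤ euclid (Nat.fib (k + 4)) (Nat.fib (k + 3))
    rw [euclid_of_ne (Nat.fib_pos.2 (by omega : 0 < k + 3)).ne',
      show Nat.fib (k + 4) = Nat.fib (k + 2) + Nat.fib (k + 3) from Nat.fib_add_two,
      Nat.add_mod_right, Nat.mod_eq_of_lt h1]
    omega

/-- **`SL 2 ℤ` is not boundedly generated by transvections.** -/
theorem exists_not_short (N : ℕ) : ∃ M : Matrix (Fin 2) (Fin 2) ℤ, M.det = 1 ∧ ¬ Short N M := by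
  set k := 3 * N + 1
  obtain ⟨u, v, huv⟩ := Nat.isCoprime_iff_coprime.2 (Nat.fib_coprime_fib_succ (k + 2))
  refine ⟨!![(Nat.fib (k + 3) : ℤ), -u; (Nat.fib (k + 2) : ℤ), v], ?_, fun h => ?_⟩
  · rw [det_fin_two_of]
    linear_combination huv
  · have := steps_of_short h
    simp [steps] at this
    have := le_euclid_fib k
    omega

end FA.CarterKeller

end
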